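/-
S29lib / K2 / TwistedSum  (helper7)

Eisenstein-type sums with bounded coefficients:
`twEis a k z = ∑' v : Fin 2 → ℤ, a v * (v 0 * z + v 1) ^ (-k)` for `a : (Fin 2 → ℤ) → ℂ`, `‖a v‖ ≤ 1`,
`3 ≤ k`.  Absolute convergence, transformation under `SL(2,ℤ)` (reindexing of the coefficients),
uniform bound on `{1 ≤ Im z}`, holomorphy, behaviour at `i∞`.
-/
import Mathlib

set_option autoImplicit false

noncomputable section

namespace Fermat.Agent.S29lib.K2

open UpperHalfPlane EisensteinSeries Matrix MatrixGroups ModularForm Filter Topology Complex Set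
  Function Manifold

/-- the Eisenstein-type sum with coefficients `a` -/
def twEis (a : (Fin 2 → ℤ) → ℂ) (k : ℤ) (z : ℍ) : ℂ :=
  ∑' v : Fin 2 → ℤ, a v * eisSummand k v z

/-- the absolute majorant -/
def absEis (k : ℤ) (z : ℍ) : ℝ := ∑' v : Fin 2 → ℤ, ‖eisSummand k v z‖

variable {a : (Fin 2 → ℤ) → ℂ} {k : ℤ}

theorem summable_norm_twSummand (ha : ∀ v, ‖a v‖ ≤ 1) (hk : 3 ≤ k) (z : ℍ) :
    Summable fun v : Fin 2 → ℤ => ‖a v * eisSummand k v z‖ :=
  (summable_norm_eisSummand hk z).of_nonneg_of_le (fun _ => norm_nonneg _) fun v => by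
    rw [norm_mul]
    exact mul_le_of_le_one_left (norm_nonneg _) (ha v)

theorem summable_twSummand (ha : ∀ v, ‖a v‖ ≤ 1) (hk : 3 ≤ k) (z : ℍ) :
    Summable fun v : Fin 2 → ℤ => a v * eisSummand k v z :=
  (summable_norm_twSummand ha hk z).of_norm

theorem norm_twEis_le (ha : ∀ v, ‖a v‖ ≤ 1) (hk : 3 ≤ k) (z : ℍ) :
    ‖twEis a k z‖ ≤ absEis k z := by
  refine (norm_tsum_le_tsum_norm (summable_norm_twSummand ha hk z)).trans ?_
  refine (summable_norm_twSummand ha hk z).tsum_le_tsum (fun v => ?_) (summable_norm_eisSummand hk z)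
  rw [norm_mul]
  exact mul_le_of_le_one_left (norm_nonneg _) (ha v)

theorem coe_mul_coe_inv (A : SL(2, ℤ)) :
    (A : Matrix (Fin 2) (Fin 2) ℤ) * ((A⁻¹ : SL(2, ℤ)) : Matrix (Fin 2) (Fin 2) ℤ) = 1 :=
  congrArg Subtype.val (mul_inv_cancel A)

theorem coe_inv_mul_coe (A : SL(2, ℤ)) :
    ((A⁻¹ : SL(2, ℤ)) : Matrix (Fin 2) (Fin 2) ℤ) * (A : Matrix (Fin 2) (Fin 2) ℤ) = 1 :=
  congrArg Subtype.val (inv_mul_cancel A)

/-- right multiplication by `A ∈ SL(2,ℤ)` on row vectors, as an equivalence -/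
def vecMulEquiv (A : SL(2, ℤ)) : (Fin 2 → ℤ) ≃ (Fin 2 → ℤ) where
  toFun v := v ᵥ* (A : Matrix (Fin 2) (Fin 2) ℤ)
  invFun v := v ᵥ* ((A⁻¹ : SL(2, ℤ)) : Matrix (Fin 2) (Fin 2) ℤ)
  left_inv v := by
    show (v ᵥ* (A : Matrix (Fin 2) (Fin 2) ℤ)) ᵥ* ((A⁻¹ : SL(2, ℤ)) : Matrix (Fin 2) (Fin 2) ℤ) = v
    rw [vecMul_vecMul, coe_mul_coe_inv, vecMul_one]
  right_inv v := by
    show (v ᵥ* ((A⁻¹ : SL(2, ℤ)) : Matrix (Fin 2) (Fin 2) ℤ)) ᵥ* (A : Matrix (Fin 2) (Fin 2) ℤ) = v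
    rw [vecMul_vecMul, coe_inv_mul_coe, vecMul_one]

@[simp] theorem vecMulEquiv_apply (A : SL(2, ℤ)) (v : Fin 2 → ℤ) :
    vecMulEquiv A v = v ᵥ* (A : Matrix (Fin 2) (Fin 2) ℤ) := rfl

/-- **transformation under `SL(2,ℤ)`** -/
theorem twEis_smul (a : (Fin 2 → ℤ) → ℂ) (k : ℤ) (A : SL(2, ℤ)) (z : ℍ) :
    twEis a k (A • z) =
      denom A z ^ k *
        twEis (fun w => a (w ᵥ* ((A⁻¹ : SL(2, ℤ)) : Matrix (Fin 2) (Fin 2) ℤ))) k z := by
  unfold twEis
  rw [← tsum_mul_left]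
  rw [← (vecMulEquiv A).tsum_eq
    (fun w => denom A z ^ k *
      (a (w ᵥ* ((A⁻¹ : SL(2, ℤ)) : Matrix (Fin 2) (Fin 2) ℤ)) * eisSummand k w z))]
  refine tsum_congr fun v => ?_
  rw [eisSummand_SL2_apply, vecMulEquiv_apply, vecMul_vecMul, coe_mul_coe_inv, vecMul_one]
  ring

/-! ### the absolute majorant: invariance and uniform bound -/

theorem absEis_smul (k : ℤ) (A : SL(2, ℤ)) (z : ℍ) :
    absEis k (A • z) = ‖denom A z‖ ^ k * absEis k z := by
  unfold absEis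
  rw [← tsum_mul_left]
  rw [← (vecMulEquiv A).tsum_eq (fun w => ‖denom A z‖ ^ k * ‖eisSummand k w z‖)]
  refine tsum_congr fun v => ?_
  rw [eisSummand_SL2_apply, norm_mul, norm_zpow, vecMulEquiv_apply]

theorem denom_eq_one_of (A : SL(2, ℤ)) (h10 : A 1 0 = 0) (h11 : A 1 1 = 1) (z : ℍ) :
    denom A z = 1 := by
  rw [ModularGroup.denom_apply, h10, h11]
  simp

theorem T_zpow_entries (n : ℤ) :
    (ModularGroup.T ^ n : SL(2, ℤ)) 1 0 = 0 ∧ (ModularGroup.T ^ n : SL(2, ℤ)) 1 1 = 1 := by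
  have h := ModularGroup.coe_T_zpow n
  constructor
  · have := congrFun (congrFun h 1) 0
    simpa using this
  · have := congrFun (congrFun h 1) 1
    simpa using this

theorem absEis_T_zpow_smul (k n : ℤ) (z : ℍ) :
    absEis k ((ModularGroup.T ^ n : SL(2, ℤ)) • z) = absEis k z := by
  rw [absEis_smul, denom_eq_one_of _ (T_zpow_entries n).1 (T_zpow_entries n).2, norm_one,
    _root_.one_zpow, one_mul]

/-- the explicit bound for `absEis k` on `{B ≤ Im z}` -/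
def absBound (k : ℤ) (B : ℝ) (hB : 0 < B) : ℝ :=
  ∑' x : Fin 2 → ℤ, r ⟨⟨1, B⟩, hB⟩ ^ (-k) * ‖x‖ ^ (-k)

theorem absEis_le_absBound {k : ℤ} (hk : 3 ≤ k) {B : ℝ} (hB : 0 < B) (z : ℍ) (hz : B ≤ z.im) :
    absEis k z ≤ absBound k B hB := by
  obtain ⟨n, hn⟩ := ModularGroup_T_zpow_mem_verticalStrip z (N := 1) one_pos
  rw [← absEis_T_zpow_smul k ((1 : ℕ) * n) z]
  have hk' : (2 : ℝ) < k := by norm_cast
  unfold absEis absBound
  refine (summable_norm_eisSummand hk _).tsum_le_tsum ?_ ?_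
  · intro x
    simp_rw [eisSummand, norm_zpow]
    exact_mod_cast
      summand_bound_of_mem_verticalStrip (lt_trans two_pos hk').le x hB
        (verticalStrip_anti_right _ hz hn)
  · exact_mod_cast (summable_one_div_norm_rpow hk').mul_left <| r ⟨⟨1, B⟩, hB⟩ ^ (-k)

/-- `twEis a k` is bounded on `{B ≤ Im z}` -/
theorem norm_twEis_le_absBound (ha : ∀ v, ‖a v‖ ≤ 1) (hk : 3 ≤ k) {B : ℝ} (hB : 0 < B) (z : ℍ)
    (hz : B ≤ z.im) : ‖twEis a k z‖ ≤ absBound k B hB :=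
  (norm_twEis_le ha hk z).trans (absEis_le_absBound hk hB z hz)

theorem isBoundedAtImInfty_twEis (ha : ∀ v, ‖a v‖ ≤ 1) (hk : 3 ≤ k) :
    IsBoundedAtImInfty (twEis a k) := by
  rw [UpperHalfPlane.isBoundedAtImInfty_iff]
  exact ⟨absBound k 1 one_pos, 1, fun z hz => norm_twEis_le_absBound ha hk one_pos z hz⟩

/-! ### holomorphy -/

theorem twEis_tendstoLocallyUniformly (ha : ∀ v, ‖a v‖ ≤ 1) (hk : 3 ≤ k) :
    TendstoLocallyUniformly (fun (s : Finset (Fin 2 → ℤ)) ↦ (∑ x ∈ s, a x * eisSummand k x ·))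
      (twEis a k ·) Filter.atTop := by
  have hk' : (2 : ℝ) < k := by norm_cast
  have p_sum : Summable fun x : Fin 2 → ℤ ↦ ‖x‖ ^ (-k) :=
    mod_cast (summable_one_div_norm_rpow hk')
  simp only [tendstoLocallyUniformly_iff_forall_isCompact, twEis]
  intro K hK
  obtain ⟨A, B, hB, HABK⟩ := subset_verticalStrip_of_isCompact hK
  refine (tendstoUniformlyOn_tsum (hu := p_sum.mul_left <| r ⟨⟨A, B⟩, hB⟩ ^ (-k : ℝ))
    (fun p z hz ↦ ?_)).mono HABK
  rw [norm_mul]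
  refine (mul_le_of_le_one_left (norm_nonneg _) (ha p)).trans ?_
  simpa only [eisSummand, one_div, ← _root_.zpow_neg, norm_zpow, ← Real.rpow_intCast,
    Int.cast_neg] using summand_bound_of_mem_verticalStrip (by positivity) p hB hz

theorem twEis_tendstoLocallyUniformlyOn (ha : ∀ v, ‖a v‖ ≤ 1) (hk : 3 ≤ k) :
    TendstoLocallyUniformlyOn (fun (s : Finset (Fin 2 → ℤ)) ↦
      ↑ₕ(fun (z : ℍ) ↦ ∑ x ∈ s, a x * eisSummand k x z)) (↑ₕ(twEis a k))
          Filter.atTop {z : ℂ | 0 < z.im} := by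
  rw [← upperHalfPlaneSet, ← range_coe, ← image_univ]
  apply TendstoLocallyUniformlyOn.comp (s := ⊤) _ _ _ (OpenPartialHomeomorph.continuousOn_symm _)
  · simp only [Set.top_eq_univ, tendstoLocallyUniformlyOn_univ]
    exact twEis_tendstoLocallyUniformly ha hk
  · simp only [IsOpenEmbedding.toOpenPartialHomeomorph_target, Set.top_eq_univ, mapsTo_range_iff,
    Set.mem_univ, forall_const]

/-- **`twEis a k` is holomorphic on `ℍ`** -/
theorem mdifferentiable_twEis (ha : ∀ v, ‖a v‖ ≤ 1) (hk : 3 ≤ k) : MDiff (twEis a k) := by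
  intro τ
  suffices DifferentiableAt ℂ (↑ₕ(twEis a k)) τ.1 by
    convert!
      MDifferentiableAt.comp τ (DifferentiableAt.mdifferentiableAt this) τ.mdifferentiable_coe
    exact funext fun z ↦ (comp_ofComplex (twEis a k) z).symm
  refine DifferentiableOn.differentiableAt ?_ (isOpen_upperHalfPlaneSet.mem_nhds τ.2)
  refine (twEis_tendstoLocallyUniformlyOn ha hk).differentiableOn
    (Eventually.of_forall fun s ↦ ?_) isOpen_upperHalfPlaneSet
  have h1 : (↑ₕ(fun (z : ℍ) ↦ ∑ x ∈ s, a x * eisSummand k x z)) =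
      fun w : ℂ => ∑ x ∈ s, a x * (↑ₕ(eisSummand k x)) w := by
    funext w
    simp only [Function.comp_apply]
  rw [h1]
  exact DifferentiableOn.fun_sum fun x _ ↦
    (eisSummand_extension_differentiableOn k x).const_mul (a x)

/-! ### behaviour at `i∞` -/

theorem norm_eisSummand_le_of_ne (k : ℤ) (v : Fin 2 → ℤ) (hv : v 0 ≠ 0) (z : ℍ) :
    ‖eisSummand k v z‖ ≤ (z.im)⁻¹ * ‖eisSummand (k - 1) v z‖ := by
  set w : ℂ := v 0 * z + v 1 with hw_def
  have hwim : w.im = (v 0 : ℝ) * z.im := by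
    simp [hw_def]
  have h1 : (1 : ℝ) ≤ |(v 0 : ℝ)| := by
    have : (1 : ℤ) ≤ |v 0| := Int.one_le_abs hv
    exact_mod_cast this
  have hw : z.im ≤ ‖w‖ := by
    calc z.im = 1 * z.im := (one_mul _).symm
      _ ≤ |(v 0 : ℝ)| * z.im := by gcongr
      _ = |w.im| := by rw [hwim, abs_mul, abs_of_pos z.im_pos]
      _ ≤ ‖w‖ := Complex.abs_im_le_norm w
  have hw0 : 0 < ‖w‖ := lt_of_lt_of_le z.im_pos hw
  simp only [eisSummand, norm_zpow]
  rw [show -k = -(k-1) + (-1) by ring, zpow_add₀ hw0.ne', _root_.zpow_neg_one, mul_comm]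
  gcongr

/-- if the coefficients vanish on the vectors `(0, d)`, the sum is `O(1 / Im z)` -/
theorem norm_twEis_le_of_vanish (ha : ∀ v, ‖a v‖ ≤ 1) (hk : 4 ≤ k)
    (ha0 : ∀ v : Fin 2 → ℤ, v 0 = 0 → a v = 0) (z : ℍ) :
    ‖twEis a k z‖ ≤ (z.im)⁻¹ * absEis (k - 1) z := by
  have hk3 : 3 ≤ k - 1 := by omega
  have hk' : 3 ≤ k := by omega
  refine (norm_tsum_le_tsum_norm (summable_norm_twSummand ha hk' z)).trans ?_
  unfold absEis
  rw [← tsum_mul_left]
  refine (summable_norm_twSummand ha hk' z).tsum_le_tsum (fun v => ?_)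
    ((summable_norm_eisSummand hk3 z).mul_left _)
  by_cases hv : v 0 = 0
  · rw [ha0 v hv, zero_mul, norm_zero]
    have := z.im_pos
    positivity
  · rw [norm_mul]
    exact (mul_le_of_le_one_left (norm_nonneg _) (ha v)).trans (norm_eisSummand_le_of_ne k v hv z)

theorem absBound_nonneg (k : ℤ) (B : ℝ) (hB : 0 < B) : 0 ≤ absBound k B hB := by
  unfold absBound
  refine tsum_nonneg fun x => ?_
  have := r_pos ⟨⟨1, B⟩, hB⟩
  positivity

theorem isZeroAtImInfty_twEis_of_vanish (ha : ∀ v, ‖a v‖ ≤ 1) (hk : 4 ≤ k)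
    (ha0 : ∀ v : Fin 2 → ℤ, v 0 = 0 → a v = 0) : IsZeroAtImInfty (twEis a k) := by
  rw [UpperHalfPlane.isZeroAtImInfty_iff]
  intro ε hε
  set C := absBound (k - 1) 1 one_pos with hC_def
  have hC : 0 ≤ C := absBound_nonneg _ _ _
  refine ⟨max 1 (C / ε), fun z hz => ?_⟩
  have h1 : 1 ≤ z.im := le_trans (le_max_left _ _) hz
  have h2 : C / ε ≤ z.im := le_trans (le_max_right _ _) hz
  have h3 : absEis (k - 1) z ≤ C := absEis_le_absBound (by omega) one_pos z h1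
  calc ‖twEis a k z‖ ≤ (z.im)⁻¹ * absEis (k - 1) z := norm_twEis_le_of_vanish ha hk ha0 z
    _ ≤ (z.im)⁻¹ * C := by
        have := z.im_pos
        gcongr
    _ ≤ ε := by
        rw [inv_mul_le_iff₀ z.im_pos]
        calc C = C / ε * ε := by field_simp
          _ ≤ z.im * ε := by gcongr

theorem twEis_add {a₁ a₂ : (Fin 2 → ℤ) → ℂ} (ha₁ : ∀ v, ‖a₁ v‖ ≤ 1) (ha₂ : ∀ v, ‖a₂ v‖ ≤ 1)
    (hk : 3 ≤ k) (z : ℍ) :
    twEis (fun v => a₁ v + a₂ v) k z = twEis a₁ k z + twEis a₂ k z := by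
  unfold twEis
  rw [← (summable_twSummand ha₁ hk z).tsum_add (summable_twSummand ha₂ hk z)]
  exact tsum_congr fun v => by ring

theorem twEis_congr {a₁ a₂ : (Fin 2 → ℤ) → ℂ} (h : ∀ v, a₁ v = a₂ v) (k : ℤ) (z : ℍ) :
    twEis a₁ k z = twEis a₂ k z := by
  unfold twEis
  exact tsum_congr fun v => by rw [h v]

/-- a sum supported on finitely many vectors -/
theorem twEis_eq_sum (s : Finset (Fin 2 → ℤ)) (ha : ∀ v, v ∉ s → a v = 0) (k : ℤ) (z : ℍ) :
    twEis a k z = ∑ v ∈ s, a v * eisSummand k v z := by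
  unfold twEis
  exact tsum_eq_sum fun v hv => by rw [ha v hv, zero_mul]

end Fermat.Agent.S29lib.K2
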