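/-
S29lib / K2 / EisChi  (helper7)

The twisted Eisenstein series of weight 4 attached to a character `χ : Γ₀(N) →* ℂˣ` with `|χ| = 1`
which is trivial on the upper triangular elements `± T^k`:
`E_χ(z) = ½ ∑_{(c,d)} χ(γ_{c,d})⁻¹ (c z + d)⁻⁴`, the sum over the bottom rows of `Γ₀(N)`.
* `eisChi_smul` : `E_χ(γ z) = χ(γ) (c z + d)^4 E_χ(z)` for `γ ∈ Γ₀(N)`;
* `mdifferentiable_eisChi` : holomorphic on `ℍ`;
* `eisChi_smul_SL` / `isBoundedAtImInfty_eisChiAt` : `E_χ(g z) = (c z + d)^4 · (bounded at i∞)` for every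
  `g ∈ SL(2,ℤ)` (all cusps);
* `tendsto_eisChi` : `E_χ → 1` at `i∞`, hence `E_χ ≠ 0`.
-/
import Fermat.Agent.S29lib.K2.TwistedSum

set_option autoImplicit false

noncomputable section

namespace Fermat.Agent.S29lib.K2

open UpperHalfPlane EisensteinSeries Matrix MatrixGroups ModularForm Filter Topology Complex Set
  CongruenceSubgroup Manifold

/-- the bottom row of an element of `SL(2,ℤ)` -/
def bottomRow (γ : SL(2, ℤ)) : Fin 2 → ℤ := (γ : Matrix (Fin 2) (Fin 2) ℤ) 1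

theorem bottomRow_apply (γ : SL(2, ℤ)) (i : Fin 2) : bottomRow γ i = γ 1 i := rfl

theorem bottomRow_mul (γ₁ γ₂ : SL(2, ℤ)) :
    bottomRow (γ₁ * γ₂) = bottomRow γ₁ ᵥ* (γ₂ : Matrix (Fin 2) (Fin 2) ℤ) := by
  show ((γ₁ : Matrix (Fin 2) (Fin 2) ℤ) * (γ₂ : Matrix (Fin 2) (Fin 2) ℤ)) 1 = _
  rw [Matrix.mul_apply_eq_vecMul]
  rfl

theorem bottomRow_one : bottomRow 1 = ![0, 1] := by
  funext i
  fin_cases i <;> simp [bottomRow]

theorem bottomRow_neg_one : bottomRow (-1) = ![0, -1] := by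
  funext i
  fin_cases i <;> simp [bottomRow]

variable {N : ℕ}

/-- two elements of `SL(2,ℤ)` with the same bottom row differ by an upper triangular element -/
theorem mul_inv_apply_one_zero_of_bottomRow_eq {γ γ' : SL(2, ℤ)}
    (h : bottomRow γ' = bottomRow γ) : (γ' * γ⁻¹) 1 0 = 0 := by
  have h1 : bottomRow (γ' * γ⁻¹) = bottomRow (γ * γ⁻¹) := by
    rw [bottomRow_mul, bottomRow_mul, h]
  rw [mul_inv_cancel, bottomRow_one] at h1
  have := congrFun h1 0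
  simpa [bottomRow_apply] using this

section Coeff

variable (χ : ↥(Gamma0 N) →* ℂˣ)

open Classical in
/-- the coefficient function on row vectors: `χ(γ)⁻¹` on the bottom row of `γ ∈ Γ₀(N)`, zero on the
vectors which are not bottom rows of elements of `Γ₀(N)` -/
def chiCoeff (v : Fin 2 → ℤ) : ℂ :=
  if h : ∃ γ : ↥(Gamma0 N), bottomRow (γ : SL(2, ℤ)) = v then
    (((χ (Classical.choose h))⁻¹ : ℂˣ) : ℂ) else 0

variable {χ}

theorem chiCoeff_bottomRow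
    (hχ : ∀ γ : ↥(Gamma0 N), (γ : SL(2, ℤ)) 1 0 = 0 → χ γ = 1) (γ : ↥(Gamma0 N)) :
    chiCoeff χ (bottomRow (γ : SL(2, ℤ))) = (((χ γ)⁻¹ : ℂˣ) : ℂ) := by
  have h : ∃ γ' : ↥(Gamma0 N), bottomRow (γ' : SL(2, ℤ)) = bottomRow (γ : SL(2, ℤ)) := ⟨γ, rfl⟩
  unfold chiCoeff
  rw [dif_pos h]
  set γ' := Classical.choose h with hγ'
  have hrow : bottomRow (γ' : SL(2, ℤ)) = bottomRow (γ : SL(2, ℤ)) := Classical.choose_spec h
  have h0 : ((γ' * γ⁻¹ : ↥(Gamma0 N)) : SL(2, ℤ)) 1 0 = 0 :=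
    mul_inv_apply_one_zero_of_bottomRow_eq hrow
  have h1 : χ (γ' * γ⁻¹) = 1 := hχ _ h0
  rw [map_mul, map_inv, mul_inv_eq_one] at h1
  rw [h1]

theorem chiCoeff_of_not_exists {v : Fin 2 → ℤ}
    (h : ¬ ∃ γ : ↥(Gamma0 N), bottomRow (γ : SL(2, ℤ)) = v) : chiCoeff χ v = 0 := by
  unfold chiCoeff
  rw [dif_neg h]

theorem chiCoeff_vecMul
    (hχ : ∀ γ : ↥(Gamma0 N), (γ : SL(2, ℤ)) 1 0 = 0 → χ γ = 1) (v : Fin 2 → ℤ)
    (γ : ↥(Gamma0 N)) :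
    chiCoeff χ (v ᵥ* ((γ : SL(2, ℤ)) : Matrix (Fin 2) (Fin 2) ℤ)) =
      chiCoeff χ v * (((χ γ)⁻¹ : ℂˣ) : ℂ) := by
  by_cases h : ∃ γ₀ : ↥(Gamma0 N), bottomRow (γ₀ : SL(2, ℤ)) = v
  · obtain ⟨γ₀, rfl⟩ := h
    have h1 : bottomRow (γ₀ : SL(2, ℤ)) ᵥ* ((γ : SL(2, ℤ)) : Matrix (Fin 2) (Fin 2) ℤ) =
        bottomRow (((γ₀ * γ : ↥(Gamma0 N)) : SL(2, ℤ))) := by
      rw [Subgroup.coe_mul, bottomRow_mul]
    rw [h1, chiCoeff_bottomRow hχ, chiCoeff_bottomRow hχ, map_mul, mul_inv, Units.val_mul,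
      mul_comm]
  · have h' : ¬ ∃ γ₀ : ↥(Gamma0 N), bottomRow (γ₀ : SL(2, ℤ)) =
        v ᵥ* ((γ : SL(2, ℤ)) : Matrix (Fin 2) (Fin 2) ℤ) := by
      rintro ⟨γ₀, hγ₀⟩
      apply h
      refine ⟨γ₀ * γ⁻¹, ?_⟩
      rw [Subgroup.coe_mul, bottomRow_mul, hγ₀, Subgroup.coe_inv, vecMul_vecMul, coe_mul_coe_inv,
        vecMul_one]
    rw [chiCoeff_of_not_exists h, chiCoeff_of_not_exists h', zero_mul]

theorem norm_chiCoeff_le (hnorm : ∀ γ : ↥(Gamma0 N), ‖((χ γ : ℂˣ) : ℂ)‖ = 1) (v : Fin 2 → ℤ) :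
    ‖chiCoeff χ v‖ ≤ 1 := by
  unfold chiCoeff
  split_ifs with h
  · rw [Units.val_inv_eq_inv_val, norm_inv, hnorm, inv_one]
  · rw [norm_zero]
    exact zero_le_one

end Coeff

section Values

variable {χ : ↥(Gamma0 N) →* ℂˣ}

theorem neg_one_mem_Gamma0 (N : ℕ) : (-1 : SL(2, ℤ)) ∈ Gamma0 N := by
  rw [Gamma0_mem]
  simp

theorem chiCoeff_zero_one (hχ : ∀ γ : ↥(Gamma0 N), (γ : SL(2, ℤ)) 1 0 = 0 → χ γ = 1) :
    chiCoeff χ ![0, 1] = 1 := by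
  have h := chiCoeff_bottomRow hχ (1 : ↥(Gamma0 N))
  rw [Subgroup.coe_one, bottomRow_one, map_one, inv_one, Units.val_one] at h
  exact h

theorem chiCoeff_zero_neg_one (hχ : ∀ γ : ↥(Gamma0 N), (γ : SL(2, ℤ)) 1 0 = 0 → χ γ = 1) :
    chiCoeff χ ![0, -1] = 1 := by
  have h := chiCoeff_bottomRow hχ (⟨-1, neg_one_mem_Gamma0 N⟩ : ↥(Gamma0 N))
  have h1 : χ (⟨-1, neg_one_mem_Gamma0 N⟩ : ↥(Gamma0 N)) = 1 := hχ _ (by simp)
  rw [h1, inv_one, Units.val_one] at h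
  rw [← bottomRow_neg_one]
  exact h

theorem eq_of_bottomRow_zero (γ : SL(2, ℤ)) (h0 : γ 1 0 = 0) :
    bottomRow γ = ![0, 1] ∨ bottomRow γ = ![0, -1] := by
  have hdet : (γ : Matrix (Fin 2) (Fin 2) ℤ).det = 1 := γ.2
  rw [Matrix.det_fin_two] at hdet
  have h0' : (γ : Matrix (Fin 2) (Fin 2) ℤ) 1 0 = 0 := h0
  rw [h0', mul_zero, sub_zero] at hdet
  rcases Int.eq_one_or_neg_one_of_mul_eq_one' hdet with ⟨-, h11⟩ | ⟨-, h11⟩
  · left
    funext i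
    fin_cases i
    · exact h0
    · exact h11
  · right
    funext i
    fin_cases i
    · exact h0
    · exact h11

theorem chiCoeff_eq_zero_of_zero {v : Fin 2 → ℤ} (hv0 : v 0 = 0) (h1 : v ≠ ![0, 1])
    (h2 : v ≠ ![0, -1]) : chiCoeff χ v = 0 := by
  refine chiCoeff_of_not_exists ?_
  rintro ⟨γ, rfl⟩
  rcases eq_of_bottomRow_zero (γ : SL(2, ℤ)) hv0 with h | h
  · exact h1 h
  · exact h2 h

end Values

/-! ### the series -/

section Series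

variable (χ : ↥(Gamma0 N) →* ℂˣ)

/-- **the twisted Eisenstein series of weight 4** -/
def eisChi (z : ℍ) : ℂ := (1 / 2 : ℂ) * twEis (chiCoeff χ) 4 z

/-- its translate at the cusp `g • i∞`: `E_χ(g z) = (c z + d)^4 · eisChiAt χ g z` -/
def eisChiAt (g : SL(2, ℤ)) (z : ℍ) : ℂ :=
  (1 / 2 : ℂ) *
    twEis (fun w => chiCoeff χ (w ᵥ* ((g⁻¹ : SL(2, ℤ)) : Matrix (Fin 2) (Fin 2) ℤ))) 4 z

variable {χ}

/-- holomorphy -/
theorem mdifferentiable_eisChi (hnorm : ∀ γ : ↥(Gamma0 N), ‖((χ γ : ℂˣ) : ℂ)‖ = 1) :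
    MDiff (eisChi χ) :=
  (mdifferentiable_const (c := (1 / 2 : ℂ))).mul
    (mdifferentiable_twEis (norm_chiCoeff_le hnorm) (by norm_num))

/-- behaviour under all of `SL(2,ℤ)` -/
theorem eisChi_smul_SL (g : SL(2, ℤ)) (z : ℍ) :
    eisChi χ (g • z) = denom g z ^ (4 : ℤ) * eisChiAt χ g z := by
  unfold eisChi eisChiAt
  rw [twEis_smul]
  ring

theorem isBoundedAtImInfty_eisChiAt (hnorm : ∀ γ : ↥(Gamma0 N), ‖((χ γ : ℂˣ) : ℂ)‖ = 1)
    (g : SL(2, ℤ)) : IsBoundedAtImInfty (eisChiAt χ g) := by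
  have h1 : IsBoundedAtImInfty
      (twEis (fun w => chiCoeff χ (w ᵥ* ((g⁻¹ : SL(2, ℤ)) : Matrix (Fin 2) (Fin 2) ℤ))) 4) :=
    isBoundedAtImInfty_twEis (fun v => norm_chiCoeff_le hnorm _) (by norm_num)
  exact (Filter.const_boundedAtFilter atImInfty (1 / 2 : ℂ)).mul h1

/-- **the transformation law under `Γ₀(N)`** -/
theorem eisChi_smul (hχ : ∀ γ : ↥(Gamma0 N), (γ : SL(2, ℤ)) 1 0 = 0 → χ γ = 1)
    (γ : ↥(Gamma0 N)) (z : ℍ) :
    eisChi χ ((γ : SL(2, ℤ)) • z) =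
      ((χ γ : ℂˣ) : ℂ) * denom (γ : SL(2, ℤ)) z ^ (4 : ℤ) * eisChi χ z := by
  rw [eisChi_smul_SL]
  unfold eisChiAt eisChi
  have h1 : ∀ w : Fin 2 → ℤ,
      chiCoeff χ (w ᵥ* (((γ : SL(2, ℤ))⁻¹ : SL(2, ℤ)) : Matrix (Fin 2) (Fin 2) ℤ)) =
        chiCoeff χ w * ((χ γ : ℂˣ) : ℂ) := by
    intro w
    have h2 := chiCoeff_vecMul hχ w γ⁻¹
    rw [Subgroup.coe_inv, map_inv, inv_inv] at h2
    exact h2
  rw [twEis_congr h1]
  unfold twEis
  simp_rw [mul_right_comm _ ((χ γ : ℂˣ) : ℂ) _]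
  rw [tsum_mul_right]
  ring

end Series

/-! ### the value at `i∞` -/

section Limit

variable {χ : ↥(Gamma0 N) →* ℂˣ}

theorem eisSummand_zero_one (k : ℤ) (z : ℍ) : eisSummand k ![0, 1] z = 1 := by
  simp [eisSummand]

theorem eisSummand_zero_neg_one (z : ℍ) : eisSummand 4 ![0, -1] z = 1 := by
  simp only [eisSummand, Matrix.cons_val_zero, Matrix.cons_val_one, Int.cast_zero, zero_mul,
    zero_add, Int.cast_neg, Int.cast_one]
  norm_num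

/-- **`E_χ → 1` at `i∞`** -/
theorem tendsto_eisChi (hnorm : ∀ γ : ↥(Gamma0 N), ‖((χ γ : ℂˣ) : ℂ)‖ = 1)
    (hχ : ∀ γ : ↥(Gamma0 N), (γ : SL(2, ℤ)) 1 0 = 0 → χ γ = 1) :
    Tendsto (eisChi χ) atImInfty (𝓝 1) := by
  set a := chiCoeff χ with ha_def
  set a₀ : (Fin 2 → ℤ) → ℂ := fun v => if v 0 = 0 then a v else 0 with ha₀_def
  set a₁ : (Fin 2 → ℤ) → ℂ := fun v => if v 0 = 0 then 0 else a v with ha₁_def
  have ha : ∀ v, ‖a v‖ ≤ 1 := norm_chiCoeff_le hnorm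
  have ha₀ : ∀ v, ‖a₀ v‖ ≤ 1 := fun v => by
    simp only [ha₀_def]
    split_ifs
    · exact ha v
    · rw [norm_zero]; exact zero_le_one
  have ha₁ : ∀ v, ‖a₁ v‖ ≤ 1 := fun v => by
    simp only [ha₁_def]
    split_ifs
    · rw [norm_zero]; exact zero_le_one
    · exact ha v
  have hsplit : ∀ z, twEis a 4 z = twEis a₀ 4 z + twEis a₁ 4 z := fun z => by
    rw [← twEis_add ha₀ ha₁ (by norm_num)]
    refine twEis_congr (fun v => ?_) 4 z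
    simp only [ha₀_def, ha₁_def]
    split_ifs
    · rw [add_zero]
    · rw [zero_add]
  have hne : (![0, 1] : Fin 2 → ℤ) ≠ ![0, -1] := by
    intro h
    have := congrFun h 1
    simp at this
  have h0 : ∀ z, twEis a₀ 4 z = 2 := by
    intro z
    have hsupp : ∀ v : Fin 2 → ℤ, v ∉ ({![0, 1], ![0, -1]} : Finset (Fin 2 → ℤ)) → a₀ v = 0 := by
      intro v hv
      simp only [Finset.mem_insert, Finset.mem_singleton, not_or] at hv
      simp only [ha₀_def]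
      split_ifs with hv0
      · exact chiCoeff_eq_zero_of_zero hv0 hv.1 hv.2
      · rfl
    rw [twEis_eq_sum _ hsupp 4 z, Finset.sum_pair hne]
    have e1 : a₀ ![0, 1] = 1 := by
      simp only [ha₀_def, Matrix.cons_val_zero, if_true]
      exact chiCoeff_zero_one hχ
    have e2 : a₀ ![0, -1] = 1 := by
      simp only [ha₀_def, Matrix.cons_val_zero, if_true]
      exact chiCoeff_zero_neg_one hχ
    rw [e1, e2, eisSummand_zero_one, eisSummand_zero_neg_one]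
    norm_num
  have h1 : Tendsto (twEis a₁ 4) atImInfty (𝓝 0) :=
    isZeroAtImInfty_twEis_of_vanish ha₁ (by norm_num) (fun v hv => by simp [ha₁_def, hv])
  have heq : eisChi χ = fun z => (1 / 2 : ℂ) * (2 + twEis a₁ 4 z) := by
    funext z
    unfold eisChi
    rw [← ha_def, hsplit, h0]
  rw [heq]
  have h2 := ((tendsto_const_nhds (x := (2 : ℂ)) (f := atImInfty)).add h1).const_mul (1 / 2 : ℂ)
  simpa using h2

/-- `E_χ` is not identically zero; more precisely it is nonzero for `Im z` large -/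
theorem eventually_eisChi_ne_zero (hnorm : ∀ γ : ↥(Gamma0 N), ‖((χ γ : ℂˣ) : ℂ)‖ = 1)
    (hχ : ∀ γ : ↥(Gamma0 N), (γ : SL(2, ℤ)) 1 0 = 0 → χ γ = 1) :
    ∀ᶠ z in atImInfty, eisChi χ z ≠ 0 :=
  (tendsto_eisChi hnorm hχ).eventually_ne one_ne_zero

theorem exists_eisChi_ne_zero (hnorm : ∀ γ : ↥(Gamma0 N), ‖((χ γ : ℂˣ) : ℂ)‖ = 1)
    (hχ : ∀ γ : ↥(Gamma0 N), (γ : SL(2, ℤ)) 1 0 = 0 → χ γ = 1) :
    ∃ z : ℍ, eisChi χ z ≠ 0 :=
  (eventually_eisChi_ne_zero hnorm hχ).exists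

end Limit

end Fermat.Agent.S29lib.K2
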