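/-
S29lib / K2 / WH0  (helper7)

For a character `χ : Γ₀(N) →* ℂˣ` with `χ ^ n = 1` (so `|χ| = 1`), trivial on the upper triangular
elements: the function `E_χ^n E₄^{2n} / Δ^n` is a weakly holomorphic modular function of weight 0
for `Γ₀(N)` (`IsWH0`), and `h_χ := E_χ / E₄` satisfies `h_χ(γ z) = χ(γ) h_χ(z)` wherever `E₄ ≠ 0`,
`h_χ ^ n = (E_χ^n E₄^{2n} / Δ^n) / j^n`.
-/
import Fermat.Agent.S29lib.K2.EisChi
import Fermat.Agent.ProgramR.LevelOne.WH0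

set_option autoImplicit false

noncomputable section

namespace Fermat.Agent.S29lib.K2

open UpperHalfPlane EisensteinSeries Matrix MatrixGroups ModularForm Filter Topology Complex Set
  CongruenceSubgroup Manifold Fermat.Agent.ProgramR Fermat.Agent.ProgramR.LevelOne

local notation "Δ" => ModularForm.discriminant

variable {N : ℕ} {χ : ↥(Gamma0 N) →* ℂˣ}

theorem norm_eq_one_of_pow_eq_one {n : ℕ} (hn : n ≠ 0) (hχn : ∀ γ : ↥(Gamma0 N), χ γ ^ n = 1)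
    (γ : ↥(Gamma0 N)) : ‖((χ γ : ℂˣ) : ℂ)‖ = 1 := by
  have h1 : ((χ γ : ℂˣ) : ℂ) ^ n = 1 := by
    rw [← Units.val_pow_eq_pow_val, hχn γ, Units.val_one]
  exact Complex.norm_eq_one_of_pow_eq_one h1 hn

/-- the weight-0 function attached to `χ` -/
def wh0Chi (χ : ↥(Gamma0 N) →* ℂˣ) (n : ℕ) (z : ℍ) : ℂ :=
  eisChi χ z ^ n * E₄ z ^ (2 * n) / Δ z ^ n

theorem mdifferentiable_E₄ : MDiff (E₄ : ℍ → ℂ) := E₄.holo'

theorem mdifferentiable_discriminant : MDiff (Δ : ℍ → ℂ) := CuspForm.discriminant.holo'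

theorem mdifferentiable_pow {f : ℍ → ℂ} (hf : MDiff f) (n : ℕ) : MDiff (fun z => f z ^ n) := by
  induction n with
  | zero => simpa using (mdifferentiable_const (c := (1 : ℂ)))
  | succ n ih =>
    have h : MDiff ((fun z => f z ^ n) * f) := ih.mul hf
    have e : ((fun z : ℍ => f z ^ n) * f) = fun z : ℍ => f z ^ (n + 1) := by
      funext z; simp [pow_succ]
    rwa [e] at h

theorem mdifferentiable_wh0Chi (hnorm : ∀ γ : ↥(Gamma0 N), ‖((χ γ : ℂˣ) : ℂ)‖ = 1) (n : ℕ) :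
    MDiff (wh0Chi χ n) := by
  have h1 : MDiff (fun z => eisChi χ z ^ n * E₄ z ^ (2 * n)) :=
    (mdifferentiable_pow (mdifferentiable_eisChi hnorm) n).mul
      (mdifferentiable_pow mdifferentiable_E₄ (2 * n))
  exact h1.div (mdifferentiable_pow mdifferentiable_discriminant n)
    (fun z => pow_ne_zero n (discriminant_ne_zero z))

/-- translate of `wh0Chi` under `g ∈ SL(2,ℤ)` -/
theorem wh0Chi_smul_SL (n : ℕ) (g : SL(2, ℤ)) (z : ℍ) :
    wh0Chi χ n (g • z) * Δ z ^ n = eisChiAt χ g z ^ n * E₄ z ^ (2 * n) := by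
  have hd : denom g z ≠ 0 := denom_ne_zero _ _
  have hΔ : Δ z ≠ 0 := discriminant_ne_zero z
  unfold wh0Chi
  rw [eisChi_smul_SL, E₄_smul, discriminant_smul]
  have e4 : (denom g z ^ (4 : ℤ)) = denom g z ^ 4 := by norm_cast
  have e12 : (denom g z ^ (12 : ℤ)) = denom g z ^ 12 := by norm_cast
  rw [e4, e12]
  field_simp
  ring

/-- **`E_χ^n E₄^{2n} / Δ^n` is a weakly holomorphic modular function for `Γ₀(N)`** -/
theorem isWH0_wh0Chi {n : ℕ} (hn : n ≠ 0) (hχn : ∀ γ : ↥(Gamma0 N), χ γ ^ n = 1)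
    (hχ : ∀ γ : ↥(Gamma0 N), (γ : SL(2, ℤ)) 1 0 = 0 → χ γ = 1) :
    IsWH0 (Gamma0 N) (wh0Chi χ n) where
  mdiff := mdifferentiable_wh0Chi (norm_eq_one_of_pow_eq_one hn hχn) n
  smul_eq := by
    intro γ hγ z
    have hd : denom γ z ≠ 0 := denom_ne_zero _ _
    have hΔ : Δ z ≠ 0 := discriminant_ne_zero z
    have h1 := eisChi_smul hχ ⟨γ, hγ⟩ z
    have h2 : ((χ ⟨γ, hγ⟩ : ℂˣ) : ℂ) ^ n = 1 := by
      rw [← Units.val_pow_eq_pow_val, hχn, Units.val_one]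
    simp only at h1
    unfold wh0Chi
    rw [h1, E₄_smul, discriminant_smul]
    have e4 : (denom γ z ^ (4 : ℤ)) = denom γ z ^ 4 := by norm_cast
    have e12 : (denom γ z ^ (12 : ℤ)) = denom γ z ^ 12 := by norm_cast
    rw [e4, e12, mul_pow, mul_pow, h2]
    field_simp
    ring
  exists_bdd := by
    refine ⟨n, fun g => ?_⟩
    have hb1 : IsBoundedAtImInfty (eisChiAt χ g) :=
      isBoundedAtImInfty_eisChiAt (norm_eq_one_of_pow_eq_one hn hχn) g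
    have hb2 : IsBoundedAtImInfty (fun z : ℍ => E₄ z) :=
      tendsto_E₄_atImInfty.isBigO_one ℝ
    have hpow : ∀ {f : ℍ → ℂ}, IsBoundedAtImInfty f → ∀ m : ℕ,
        IsBoundedAtImInfty (fun z => f z ^ m) := by
      intro f hf m
      induction m with
      | zero => simpa using isBoundedAtImInfty_const 1
      | succ m ih =>
        have h : IsBoundedAtImInfty ((fun z : ℍ => f z ^ m) * f) := ih.mul hf
        have e : ((fun z : ℍ => f z ^ m) * f) = fun z : ℍ => f z ^ (m + 1) := by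
          funext z; simp [pow_succ]
        rwa [e] at h
    have h3 : IsBoundedAtImInfty
        ((fun z : ℍ => eisChiAt χ g z ^ n) * (fun z : ℍ => E₄ z ^ (2 * n))) :=
      (hpow hb1 n).mul (hpow hb2 (2 * n))
    refine Asymptotics.IsBigO.congr_left h3 fun z => ?_
    rw [wh0Chi_smul_SL]
    rfl

theorem wh0Chi_mem_WH0 {n : ℕ} (hn : n ≠ 0) (hχn : ∀ γ : ↥(Gamma0 N), χ γ ^ n = 1)
    (hχ : ∀ γ : ↥(Gamma0 N), (γ : SL(2, ℤ)) 1 0 = 0 → χ γ = 1) :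
    wh0Chi χ n ∈ WH0 (Gamma0 N) :=
  isWH0_wh0Chi hn hχn hχ

/-- `wh0Chi χ n` does not vanish for `Im z` large -/
theorem eventually_wh0Chi_ne_zero {n : ℕ} (hn : n ≠ 0) (hχn : ∀ γ : ↥(Gamma0 N), χ γ ^ n = 1)
    (hχ : ∀ γ : ↥(Gamma0 N), (γ : SL(2, ℤ)) 1 0 = 0 → χ γ = 1) :
    ∀ᶠ z in atImInfty, wh0Chi χ n z ≠ 0 := by
  have h1 := eventually_eisChi_ne_zero (norm_eq_one_of_pow_eq_one hn hχn) hχ
  have h2 : ∀ᶠ z in atImInfty, E₄ z ≠ 0 := tendsto_E₄_atImInfty.eventually_ne one_ne_zero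
  filter_upwards [h1, h2] with z hz1 hz2
  unfold wh0Chi
  exact div_ne_zero (mul_ne_zero (pow_ne_zero n hz1) (pow_ne_zero _ hz2))
    (pow_ne_zero n (discriminant_ne_zero z))

theorem wh0Chi_ne_zero {n : ℕ} (hn : n ≠ 0) (hχn : ∀ γ : ↥(Gamma0 N), χ γ ^ n = 1)
    (hχ : ∀ γ : ↥(Gamma0 N), (γ : SL(2, ℤ)) 1 0 = 0 → χ γ = 1) : wh0Chi χ n ≠ 0 := by
  obtain ⟨z, hz⟩ := (eventually_wh0Chi_ne_zero hn hχn hχ).exists
  intro h
  exact hz (by rw [h]; rfl)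

/-! ### the `χ`-automorphic function `h_χ = E_χ / E₄` -/

/-- `h_χ := E_χ / E₄` (meromorphic on `ℍ`, poles only at the zeros of `E₄`) -/
def hChi (χ : ↥(Gamma0 N) →* ℂˣ) (z : ℍ) : ℂ := eisChi χ z / E₄ z

/-- **`h_χ(γ z) = χ(γ) h_χ(z)` for `γ ∈ Γ₀(N)`** (also at the zeros of `E₄`, where both sides are `0`
by the convention `x / 0 = 0`) -/
theorem hChi_smul (hχ : ∀ γ : ↥(Gamma0 N), (γ : SL(2, ℤ)) 1 0 = 0 → χ γ = 1)
    (γ : ↥(Gamma0 N)) (z : ℍ) :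
    hChi χ ((γ : SL(2, ℤ)) • z) = ((χ γ : ℂˣ) : ℂ) * hChi χ z := by
  have hd : denom (γ : SL(2, ℤ)) z ^ (4 : ℤ) ≠ 0 := zpow_ne_zero _ (denom_ne_zero _ _)
  unfold hChi
  rw [eisChi_smul hχ, E₄_smul, mul_comm ((χ γ : ℂˣ) : ℂ), mul_assoc, mul_div_mul_left _ _ hd,
    mul_div_assoc]

/-- `h_χ ^ n = (E_χ^n E₄^{2n} / Δ^n) / j^n` -/
theorem hChi_pow {n : ℕ} (hn : n ≠ 0) (z : ℍ) :
    hChi χ z ^ n = wh0Chi χ n z / jInv z ^ n := by
  have hΔ : Δ z ≠ 0 := discriminant_ne_zero z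
  unfold hChi wh0Chi
  rw [jInv_def]
  by_cases hE : E₄ z = 0
  · rw [hE, div_zero, zero_pow hn, zero_pow (by omega : 2 * n ≠ 0), mul_zero, zero_div, zero_div]
  · have hE' : E₄ z ^ (2 * n) ≠ 0 := pow_ne_zero _ hE
    rw [div_pow, div_pow, ← pow_mul, div_div_div_cancel_right₀ (pow_ne_zero n hΔ),
      show 3 * n = n + 2 * n by ring, pow_add, mul_div_mul_right _ _ hE']

end Fermat.Agent.S29lib.K2
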