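/-
S29lib / K2 / YChi  (helper7)

The weight-0 holomorphic `χ`-automorphic function `y_χ := E_χ E₄² / Δ : Hol`
(`y_χ(γ z) = χ(γ) y_χ(z)` for `γ ∈ Γ₀(N)`, `y_χ ≠ 0`) and the element
`G_χ : WH0 (Γ₀(N))` with `toHol G_χ = y_χ ^ n` (for `χ ^ n = 1`): the input "RootData n G_χ with
character χ" of block K3 (surjectivity of the Kummer map).
-/
import Fermat.Agent.S29lib.K2.WH0
import Fermat.Agent.ProgramR.Analytic.WH0Ring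

set_option autoImplicit false

noncomputable section

namespace Fermat.Agent.S29lib.K2

open UpperHalfPlane EisensteinSeries Matrix MatrixGroups ModularForm Filter Topology Complex Set
  CongruenceSubgroup Manifold Fermat.Agent.ProgramR Fermat.Agent.ProgramR.LevelOne

local notation "Δ" => ModularForm.discriminant

variable {N : ℕ} {χ : ↥(Gamma0 N) →* ℂˣ}

/-- `y_χ = E_χ E₄² / Δ` as a function -/
def yChiFun (χ : ↥(Gamma0 N) →* ℂˣ) (z : ℍ) : ℂ := eisChi χ z * E₄ z ^ 2 / Δ z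

theorem mdifferentiable_yChiFun (hnorm : ∀ γ : ↥(Gamma0 N), ‖((χ γ : ℂˣ) : ℂ)‖ = 1) :
    MDiff (yChiFun χ) := by
  have h1 : MDiff (fun z => eisChi χ z * E₄ z ^ 2) :=
    (mdifferentiable_eisChi hnorm).mul (mdifferentiable_pow mdifferentiable_E₄ 2)
  exact h1.div mdifferentiable_discriminant (fun z => discriminant_ne_zero z)

/-- **`y_χ(γ z) = χ(γ) y_χ(z)`** -/
theorem yChiFun_smul (hχ : ∀ γ : ↥(Gamma0 N), (γ : SL(2, ℤ)) 1 0 = 0 → χ γ = 1)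
    (γ : ↥(Gamma0 N)) (z : ℍ) :
    yChiFun χ ((γ : SL(2, ℤ)) • z) = ((χ γ : ℂˣ) : ℂ) * yChiFun χ z := by
  have hd : denom (γ : SL(2, ℤ)) z ≠ 0 := denom_ne_zero _ _
  have hΔ : Δ z ≠ 0 := discriminant_ne_zero z
  unfold yChiFun
  rw [eisChi_smul hχ, E₄_smul, discriminant_smul]
  have e4 : (denom (γ : SL(2, ℤ)) z ^ (4 : ℤ)) = denom (γ : SL(2, ℤ)) z ^ 4 := by norm_cast
  have e12 : (denom (γ : SL(2, ℤ)) z ^ (12 : ℤ)) = denom (γ : SL(2, ℤ)) z ^ 12 := by norm_cast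
  rw [e4, e12]
  field_simp

theorem yChiFun_pow (n : ℕ) (z : ℍ) : yChiFun χ z ^ n = wh0Chi χ n z := by
  unfold yChiFun wh0Chi
  rw [div_pow, mul_pow, ← pow_mul]

theorem eventually_yChiFun_ne_zero (hnorm : ∀ γ : ↥(Gamma0 N), ‖((χ γ : ℂˣ) : ℂ)‖ = 1)
    (hχ : ∀ γ : ↥(Gamma0 N), (γ : SL(2, ℤ)) 1 0 = 0 → χ γ = 1) :
    ∀ᶠ z in atImInfty, yChiFun χ z ≠ 0 := by
  have h1 := eventually_eisChi_ne_zero hnorm hχ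
  have h2 : ∀ᶠ z in atImInfty, E₄ z ≠ 0 := tendsto_E₄_atImInfty.eventually_ne one_ne_zero
  filter_upwards [h1, h2] with z hz1 hz2
  unfold yChiFun
  exact div_ne_zero (mul_ne_zero hz1 (pow_ne_zero _ hz2)) (discriminant_ne_zero z)

/-- `y_χ` as an element of `Hol` -/
def yChi (χ : ↥(Gamma0 N) →* ℂˣ) (hnorm : ∀ γ : ↥(Gamma0 N), ‖((χ γ : ℂˣ) : ℂ)‖ = 1) : Hol :=
  ⟨yChiFun χ, mdifferentiable_yChiFun hnorm⟩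

@[simp] theorem yChi_apply (hnorm : ∀ γ : ↥(Gamma0 N), ‖((χ γ : ℂˣ) : ℂ)‖ = 1) (z : ℍ) :
    (yChi χ hnorm : ℍ → ℂ) z = yChiFun χ z := rfl

theorem yChi_smul (hnorm : ∀ γ : ↥(Gamma0 N), ‖((χ γ : ℂˣ) : ℂ)‖ = 1)
    (hχ : ∀ γ : ↥(Gamma0 N), (γ : SL(2, ℤ)) 1 0 = 0 → χ γ = 1) (γ : ↥(Gamma0 N)) (z : ℍ) :
    (yChi χ hnorm : ℍ → ℂ) ((γ : SL(2, ℤ)) • z) = ((χ γ : ℂˣ) : ℂ) * (yChi χ hnorm : ℍ → ℂ) z :=
  yChiFun_smul hχ γ z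

theorem yChi_ne_zero (hnorm : ∀ γ : ↥(Gamma0 N), ‖((χ γ : ℂˣ) : ℂ)‖ = 1)
    (hχ : ∀ γ : ↥(Gamma0 N), (γ : SL(2, ℤ)) 1 0 = 0 → χ γ = 1) : yChi χ hnorm ≠ 0 := by
  obtain ⟨z, hz⟩ := (eventually_yChiFun_ne_zero hnorm hχ).exists
  intro h
  apply hz
  have := congrArg (fun f : Hol => (f : ℍ → ℂ) z) h
  simpa using this

/-- `G_χ = E_χ^n E₄^{2n} / Δ^n` as an element of `WH0 (Γ₀(N))` -/
def gChi (χ : ↥(Gamma0 N) →* ℂˣ) {n : ℕ} (hn : n ≠ 0) (hχn : ∀ γ : ↥(Gamma0 N), χ γ ^ n = 1)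
    (hχ : ∀ γ : ↥(Gamma0 N), (γ : SL(2, ℤ)) 1 0 = 0 → χ γ = 1) : ↥(WH0 (Gamma0 N)) :=
  ⟨wh0Chi χ n, wh0Chi_mem_WH0 hn hχn hχ⟩

/-- **`toHol G_χ = y_χ ^ n`** -/
theorem toHol_gChi {n : ℕ} (hn : n ≠ 0) (hχn : ∀ γ : ↥(Gamma0 N), χ γ ^ n = 1)
    (hχ : ∀ γ : ↥(Gamma0 N), (γ : SL(2, ℤ)) 1 0 = 0 → χ γ = 1) :
    WH0.toHol (Gamma0 N) (gChi χ hn hχn hχ) =
      yChi χ (norm_eq_one_of_pow_eq_one hn hχn) ^ n := by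
  refine Hol.ext fun z => ?_
  have h1 : ((yChi χ (norm_eq_one_of_pow_eq_one hn hχn) ^ n : Hol) : ℍ → ℂ) z =
      yChiFun χ z ^ n := rfl
  rw [h1, yChiFun_pow]
  rfl

theorem gChi_ne_zero {n : ℕ} (hn : n ≠ 0) (hχn : ∀ γ : ↥(Gamma0 N), χ γ ^ n = 1)
    (hχ : ∀ γ : ↥(Gamma0 N), (γ : SL(2, ℤ)) 1 0 = 0 → χ γ = 1) : gChi χ hn hχn hχ ≠ 0 := by
  intro h
  have h1 := toHol_gChi hn hχn hχ
  rw [h, map_zero] at h1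
  exact yChi_ne_zero (norm_eq_one_of_pow_eq_one hn hχn) hχ (pow_eq_zero_iff hn |>.mp h1.symm)

end Fermat.Agent.S29lib.K2
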