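/-
S29lib / K2 / ParTor  (helper7)

Adapter: a character of `Γ₀(N)` killing the parabolic-or-torsion elements (`IsParTor`, S16lib/LG) is
trivial on the upper triangular elements, which is the hypothesis `hχ` of `K2/EisChi`, `K2/WH0`,
`K2/YChi`.
-/
import Fermat.Agent.S29lib.K2.YChi
import Fermat.Agent.S16lib.LG.Shimura

set_option autoImplicit false

noncomputable section

namespace Fermat.Agent.S29lib.K2

open Matrix MatrixGroups CongruenceSubgroup Fermat.Agent.ProgramR

/-- an upper triangular element of `SL(2,ℤ)` is parabolic (trace `± 2`) -/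
theorem isPar_of_apply_one_zero (γ : SL(2, ℤ)) (h0 : γ 1 0 = 0) : ES.IsPar γ := by
  have hdet : (γ : Matrix (Fin 2) (Fin 2) ℤ).det = 1 := γ.2
  rw [Matrix.det_fin_two] at hdet
  have h0' : (γ : Matrix (Fin 2) (Fin 2) ℤ) 1 0 = 0 := h0
  rw [h0', mul_zero, sub_zero] at hdet
  unfold ES.IsPar
  rw [Matrix.trace_fin_two]
  rcases Int.eq_one_or_neg_one_of_mul_eq_one' hdet with ⟨h00, h11⟩ | ⟨h00, h11⟩
  · rw [h00, h11]; norm_num
  · rw [h00, h11]; norm_num

variable {N : ℕ} {χ : ↥(Gamma0 N) →* ℂˣ}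

/-- a character killing `IsParTor` is trivial on the upper triangular elements -/
theorem eq_one_of_apply_one_zero_of_kills
    (hk : ∀ γ : ↥(Gamma0 N), Fermat.Agent.S16lib.LG.IsParTor (γ : SL(2, ℤ)) → χ γ = 1)
    (γ : ↥(Gamma0 N)) (h0 : (γ : SL(2, ℤ)) 1 0 = 0) : χ γ = 1 :=
  hk γ (Or.inl (isPar_of_apply_one_zero _ h0))

end Fermat.Agent.S29lib.K2
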